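import Mathlib

/-!
# The local subring `O_h` of an ambient field attached to a prime `h` of a UFD `R`

`R` a UFD with fraction field `K`, `ι : K →+* 𝕃` a field embedding, `h : R` prime.
`locSubring ι h hh = {x : 𝕃 | ∃ a b : R, ¬ h ∣ b ∧ x * ι b = ι a}` (the image of `R_(h)`).
We prove: `ι h` is a nonzero nonunit of it, every nonzero element of `range ι` is
`(ι h)^n * unit`, and the exponent of a fraction `f1 / f2` is `n1 - n2`.
(Mathlib only; feeds the UFD wrapper of leaf C3-CFE.)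
-/

namespace Fermat.Agent.S40x.R2.CFE.UFDLocal

set_option linter.unusedSectionVars false

variable {R K 𝕃 : Type*} [CommRing R] [IsDomain R] [Field K] [Algebra R K] [IsFractionRing R K]
  [Field 𝕃] (ι : K →+* 𝕃)

/-- The composite `R → K → 𝕃`. -/
def J : R →+* 𝕃 := ι.comp (algebraMap R K)

theorem J_apply (a : R) : J ι a = ι (algebraMap R K a) := rfl

theorem J_injective : Function.Injective (J (R := R) ι) :=
  ι.injective.comp (IsFractionRing.injective R K)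

theorem J_ne_zero {a : R} (ha : a ≠ 0) : J ι a ≠ 0 := fun h0 =>
  ha (J_injective ι (by rw [h0, map_zero]))

variable (h : R) (hh : Prime h)

/-- The image in `𝕃` of the localisation of `R` at the prime `(h)`. -/
def locSubring : Subring 𝕃 where
  carrier := {x | ∃ a b : R, ¬ h ∣ b ∧ x * ι (algebraMap R K b) = ι (algebraMap R K a)}
  mul_mem' := by
    rintro x y ⟨a, b, hb, hx⟩ ⟨a', b', hb', hy⟩
    refine ⟨a * a', b * b', fun hd => (hh.dvd_or_dvd hd).elim hb hb', ?_⟩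
    rw [map_mul, map_mul, map_mul, map_mul, ← hx, ← hy]
    ring
  one_mem' := ⟨1, 1, fun hd => hh.not_isUnit (isUnit_of_dvd_one hd), by simp⟩
  add_mem' := by
    rintro x y ⟨a, b, hb, hx⟩ ⟨a', b', hb', hy⟩
    refine ⟨a * b' + a' * b, b * b', fun hd => (hh.dvd_or_dvd hd).elim hb hb', ?_⟩
    simp only [map_mul, map_add]
    rw [← hx, ← hy]
    ring
  zero_mem' := ⟨0, 1, fun hd => hh.not_isUnit (isUnit_of_dvd_one hd), by simp⟩
  neg_mem' := by
    rintro x ⟨a, b, hb, hx⟩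
    refine ⟨-a, b, hb, ?_⟩
    rw [map_neg, map_neg, ← hx]
    ring

theorem mem_locSubring {x : 𝕃} : x ∈ locSubring ι h hh ↔
    ∃ a b : R, ¬ h ∣ b ∧ x * ι (algebraMap R K b) = ι (algebraMap R K a) := Iff.rfl

theorem J_mem (a : R) : J ι a ∈ locSubring ι h hh :=
  ⟨a, 1, fun hd => hh.not_isUnit (isUnit_of_dvd_one hd), by simp [J_apply]⟩

include hh in
theorem J_h_ne_zero : J ι h ≠ 0 := J_ne_zero ι hh.ne_zero

theorem J_h_inv_not_mem : (J ι h)⁻¹ ∉ locSubring ι h hh := by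
  rintro ⟨a, b, hb, hx⟩
  apply hb
  have h1 : J ι b = J ι (h * a) := by
    rw [map_mul, J_apply, J_apply, J_apply, ← hx, ← J_apply ι h]
    field_simp [J_h_ne_zero ι h hh]
  exact ⟨a, J_injective ι h1⟩

/-- A quotient of two elements prime to `h` is a unit of `O_h`. -/
theorem div_mem_of_not_dvd {a b : R} (hb : ¬ h ∣ b) : J ι a / J ι b ∈ locSubring ι h hh := by
  have hb0 : b ≠ 0 := fun h0 => hb (h0 ▸ dvd_zero h)
  refine ⟨a, b, hb, ?_⟩
  rw [← J_apply, ← J_apply, div_mul_cancel₀ _ (J_ne_zero ι hb0)]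

/-- Key computation: if `x * (ι h ^ j * ι b') = ι h ^ i * ι a'` with `a', b'` prime to `h`, then
`x * (ι h)^(-(i - j))` is a unit of `O_h`. -/
theorem unit_of_eq {x : 𝕃} {a' b' : R} (ha' : ¬ h ∣ a') (hb' : ¬ h ∣ b') (i j : ℕ)
    (hx : x * (J ι h ^ j * J ι b') = J ι h ^ i * J ι a') :
    x * J ι h ^ (-((i : ℤ) - j)) ∈ locSubring ι h hh ∧
      (x * J ι h ^ (-((i : ℤ) - j)))⁻¹ ∈ locSubring ι h hh := by
  have hh0 := J_h_ne_zero ι h hh
  have ha0 : J ι a' ≠ 0 := J_ne_zero ι (fun h0 => ha' (h0 ▸ dvd_zero h))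
  have hb0 : J ι b' ≠ 0 := J_ne_zero ι (fun h0 => hb' (h0 ▸ dvd_zero h))
  have hxe : x * J ι h ^ (-((i : ℤ) - j)) = J ι a' / J ι b' := by
    have hx' : x = J ι h ^ i * J ι a' / (J ι h ^ j * J ι b') := by
      rw [eq_div_iff (mul_ne_zero (pow_ne_zero _ hh0) hb0)]
      exact hx
    rw [hx', neg_sub, zpow_sub₀ hh0, zpow_natCast, zpow_natCast]
    field_simp
  rw [hxe, inv_div]
  exact ⟨div_mem_of_not_dvd ι h hh hb', div_mem_of_not_dvd ι h hh ha'⟩

variable [UniqueFactorizationMonoid R]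

/-- Every nonzero element of `range ι` is a power of `ι h` times a unit of `O_h`. -/
theorem exists_zpow_unit (x : 𝕃) (hx : x ∈ Set.range ι) (hx0 : x ≠ 0) :
    ∃ n : ℤ, x * J ι h ^ (-n) ∈ locSubring ι h hh ∧
      (x * J ι h ^ (-n))⁻¹ ∈ locSubring ι h hh := by
  obtain ⟨k, rfl⟩ := hx
  obtain ⟨a, b, hb0, rfl⟩ := IsFractionRing.div_surjective (A := R) k
  have hb0' : b ≠ 0 := nonZeroDivisors.ne_zero hb0
  have ha0 : a ≠ 0 := by
    rintro rfl
    apply hx0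
    simp
  obtain ⟨i, a', ha', rfl⟩ := WfDvdMonoid.max_power_factor ha0 hh.irreducible
  obtain ⟨j, b', hb', rfl⟩ := WfDvdMonoid.max_power_factor hb0' hh.irreducible
  refine ⟨(i : ℤ) - j, unit_of_eq ι h hh ha' hb' i j ?_⟩
  have hden : J ι (h ^ j * b') ≠ 0 := J_ne_zero ι hb0'
  rw [map_div₀, ← J_apply, ← J_apply, ← map_pow, ← map_pow, ← map_mul, ← map_mul,
    div_mul_cancel₀ _ hden]

/-- The exponent of a fraction `f = f1 / f2` with `h^n1 ∥ f1`, `h^n2 ∥ f2` is `n1 - n2`. -/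
theorem unit_of_frac (f : K) (f1 f2 : R) (hmul : f * algebraMap R K f2 = algebraMap R K f1)
    (n1 n2 : ℕ) (h1 : h ^ n1 ∣ f1) (h1' : ¬ h ^ (n1 + 1) ∣ f1) (h2 : h ^ n2 ∣ f2)
    (h2' : ¬ h ^ (n2 + 1) ∣ f2) :
    ι f * J ι h ^ (-((n1 : ℤ) - n2)) ∈ locSubring ι h hh ∧
      (ι f * J ι h ^ (-((n1 : ℤ) - n2)))⁻¹ ∈ locSubring ι h hh := by
  obtain ⟨a', rfl⟩ := h1
  obtain ⟨b', rfl⟩ := h2
  have ha' : ¬ h ∣ a' := by
    rintro ⟨d, rfl⟩
    exact h1' ⟨d, by rw [pow_succ, mul_assoc]⟩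
  have hb' : ¬ h ∣ b' := by
    rintro ⟨d, rfl⟩
    exact h2' ⟨d, by rw [pow_succ, mul_assoc]⟩
  refine unit_of_eq ι h hh ha' hb' n1 n2 ?_
  have := congrArg ι hmul
  rw [map_mul] at this
  rw [← map_pow, ← map_pow, ← map_mul, ← map_mul, J_apply, J_apply]
  exact this

end Fermat.Agent.S40x.R2.CFE.UFDLocal
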