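/-
C3-CFE core (helper88): "constants are unramified", Mathlib-only part.

Ambient field `𝕃`, valuation subring `O'` of `𝕃` with valuation `v`, an element `h` with
`0 < v h < 1`.  `HPow O' h E` says that the value group of `v` on the subfield `E` is `v(h)^ℤ`.
Main result: this property is preserved by adjoining roots of separable polynomials with
coefficients in a subfield `K0 ≤ E` of `v`-units.
-/
import Mathlib

set_option autoImplicit false

namespace Fermat.Agent.S40x.R2.CFE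

open Polynomial

variable {𝕃 : Type*} [Field 𝕃]

/-- The value group of `O'` on the subfield `E` is generated by the value of `h`. -/
def HPow (O' : ValuationSubring 𝕃) (h : 𝕃) (E : Subfield 𝕃) : Prop :=
  ∀ y ∈ E, y ≠ 0 → ∃ n : ℤ, O'.valuation y = O'.valuation h ^ n

theorem HPow.mono {O' : ValuationSubring 𝕃} {h : 𝕃} {E E' : Subfield 𝕃} (hE : HPow O' h E)
    (hle : E' ≤ E) : HPow O' h E' := fun y hy hy0 => hE y (hle hy) hy0

section Val

variable (O' : ValuationSubring 𝕃)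

/-- evaluation of a polynomial with integral coefficients at an integral point is integral -/
theorem val_eval_le_one (P : 𝕃[X]) (hP : ∀ i, O'.valuation (P.coeff i) ≤ 1) (y : 𝕃)
    (hy : O'.valuation y ≤ 1) : O'.valuation (P.eval y) ≤ 1 := by
  rw [Polynomial.eval_eq_sum_range]
  refine Valuation.map_sum_le _ fun i _ => ?_
  rw [map_mul, map_pow]
  exact mul_le_one' (hP i) (pow_le_one' hy i)

end Val

section Step

variable (O' : ValuationSubring 𝕃) (E1 : Subfield 𝕃)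

/-- the valuation ring of `E1` cut out by `O'` -/
abbrev V1 : ValuationSubring ↥E1 := O'.comap E1.subtype

/-- the inclusion of `V1` into the ambient field -/
def incl : ↥(V1 O' E1) →+* 𝕃 := E1.subtype.comp (V1 O' E1).subtype

theorem incl_apply (x : ↥(V1 O' E1)) : incl O' E1 x = ((x : ↥E1) : 𝕃) := rfl

theorem val_incl_le_one (x : ↥(V1 O' E1)) : O'.valuation (incl O' E1 x) ≤ 1 :=
  (O'.valuation_le_one_iff _).2 (ValuationSubring.mem_comap.1 x.2)

theorem incl_mem (x : ↥(V1 O' E1)) : incl O' E1 x ∈ E1 := (x : ↥E1).2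

theorem exists_incl_eq {z : 𝕃} (hz : z ∈ E1) (hv : O'.valuation z ≤ 1) :
    ∃ x : ↥(V1 O' E1), incl O' E1 x = z :=
  ⟨⟨⟨z, hz⟩, ValuationSubring.mem_comap.2 ((O'.valuation_le_one_iff z).1 hv)⟩, rfl⟩

theorem incl_injective : Function.Injective (incl O' E1) := fun _ _ hxy =>
  Subtype.ext (Subtype.ext hxy)

variable (θ : 𝕃)

/-- evaluation at `θ` -/
noncomputable def ev : (↥(V1 O' E1))[X] →+* 𝕃 := Polynomial.eval₂RingHom (incl O' E1) θ

theorem ev_C (x : ↥(V1 O' E1)) : ev O' E1 θ (C x) = incl O' E1 x := by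
  simp [ev]

theorem ev_eq_eval_map (P : (↥(V1 O' E1))[X]) :
    ev O' E1 θ P = (P.map (incl O' E1)).eval θ := by
  simp [ev, Polynomial.eval_map]

theorem val_ev_le_one (hθ : O'.valuation θ ≤ 1) (P : (↥(V1 O' E1))[X]) :
    O'.valuation (ev O' E1 θ P) ≤ 1 := by
  rw [ev_eq_eval_map]
  refine val_eval_le_one O' _ (fun i => ?_) θ hθ
  rw [Polynomial.coeff_map]
  exact val_incl_le_one O' E1 _

end Step

section IdealPart

variable (O' : ValuationSubring 𝕃) (E1 : Subfield 𝕃) (θ : 𝕃) (h : 𝕃)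

/-- polynomials whose value at `θ` lies in the maximal ideal of `O'` -/
def I0 (hθ : O'.valuation θ ≤ 1) : Ideal (↥(V1 O' E1))[X] where
  carrier := {P | O'.valuation (ev O' E1 θ P) < 1}
  zero_mem' := by simp
  add_mem' := by
    intro a b ha hb
    simp only [Set.mem_ofPred_eq, map_add] at *
    exact lt_of_le_of_lt (Valuation.map_add _ _ _) (max_lt ha hb)
  smul_mem' := by
    intro c a ha
    simp only [Set.mem_ofPred_eq, smul_eq_mul, map_mul] at *
    calc O'.valuation (ev O' E1 θ c) * O'.valuation (ev O' E1 θ a)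
        ≤ 1 * O'.valuation (ev O' E1 θ a) := mul_le_mul_left (val_ev_le_one O' E1 θ hθ c) _
      _ < 1 := by rwa [one_mul]

theorem mem_I0 (hθ : O'.valuation θ ≤ 1) (P : (↥(V1 O' E1))[X]) :
    P ∈ I0 O' E1 θ hθ ↔ O'.valuation (ev O' E1 θ P) < 1 := Iff.rfl

variable {O' E1 h}

/-- a nonunit of `V1` is divisible by `h` -/
theorem exists_eq_h_mul (hhE : h ∈ E1) (hh0 : h ≠ 0) (hh1 : O'.valuation h < 1)
    (hE1 : HPow O' h E1) (x : ↥(V1 O' E1)) (hx : ¬ IsUnit x) :
    ∃ y : ↥(V1 O' E1), incl O' E1 x = h * incl O' E1 y := by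
  by_cases hx0 : x = 0
  · exact ⟨0, by simp [hx0]⟩
  have hix0 : incl O' E1 x ≠ 0 := fun h0 => hx0 (incl_injective O' E1 (by rw [h0, map_zero]))
  obtain ⟨n, hn⟩ := hE1 _ (incl_mem O' E1 x) hix0
  have hvh0 : O'.valuation h ≠ 0 := (Valuation.ne_zero_iff _).2 hh0
  have hvhpos : 0 < O'.valuation h := zero_lt_iff.2 hvh0
  by_cases hn1 : 1 ≤ n
  · -- divide by h
    have hzE : incl O' E1 x * h⁻¹ ∈ E1 := E1.mul_mem (incl_mem O' E1 x) (E1.inv_mem hhE)
    have hzv : O'.valuation (incl O' E1 x * h⁻¹) ≤ 1 := by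
      rw [map_mul, map_inv₀, hn, ← zpow_sub_one₀ hvh0]
      exact zpow_le_one₀ hvhpos hh1.le (by omega)
    obtain ⟨y, hy⟩ := exists_incl_eq O' E1 hzE hzv
    exact ⟨y, by rw [hy]; field_simp⟩
  · exfalso
    apply hx
    have hv1 : O'.valuation (incl O' E1 x) = 1 := by
      refine le_antisymm (val_incl_le_one O' E1 x) ?_
      rw [hn]
      have : n ≤ 0 := by omega
      exact one_le_zpow_of_nonpos₀ hvhpos hh1.le this
    have hzE : (incl O' E1 x)⁻¹ ∈ E1 := E1.inv_mem (incl_mem O' E1 x)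
    have hzv : O'.valuation (incl O' E1 x)⁻¹ ≤ 1 := by rw [map_inv₀, hv1, inv_one]
    obtain ⟨y, hy⟩ := exists_incl_eq O' E1 hzE hzv
    refine IsUnit.of_mul_eq_one y (incl_injective O' E1 ?_)
    rw [map_mul, hy, map_one, mul_inv_cancel₀ hix0]

/-- the maximal ideal of `V1` is generated by `h` -/
theorem maximalIdeal_V1_eq (hhE : h ∈ E1) (hh0 : h ≠ 0) (hh1 : O'.valuation h < 1)
    (hE1 : HPow O' h E1) (h1 : ↥(V1 O' E1)) (hh1eq : incl O' E1 h1 = h) :
    IsLocalRing.maximalIdeal ↥(V1 O' E1) = Ideal.span {h1} := by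
  apply le_antisymm
  · intro x hx
    obtain ⟨y, hy⟩ := exists_eq_h_mul hhE hh0 hh1 hE1 x
      ((IsLocalRing.mem_maximalIdeal x).1 hx)
    refine Ideal.mem_span_singleton'.2 ⟨y, incl_injective O' E1 ?_⟩
    rw [map_mul, hy, hh1eq, mul_comm]
  · rw [Ideal.span_singleton_le_iff_mem, IsLocalRing.mem_maximalIdeal, mem_nonunits_iff]
    intro hu
    obtain ⟨y, hy⟩ := hu.exists_right_inv
    have h2 := congrArg (fun z => O'.valuation (incl O' E1 z)) hy
    simp only [map_mul, map_one, hh1eq] at h2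
    have h3 : O'.valuation h * O'.valuation (incl O' E1 y) < 1 :=
      mul_lt_one_of_lt_of_le hh1 (val_incl_le_one O' E1 y)
    exact absurd h2 h3.ne

/-- polynomials reducing to zero are divisible by `h` -/
theorem exists_eq_C_mul_of_map_eq_zero (hhE : h ∈ E1) (hh0 : h ≠ 0) (hh1 : O'.valuation h < 1)
    (hE1 : HPow O' h E1) (h1 : ↥(V1 O' E1)) (hh1eq : incl O' E1 h1 = h)
    (P : (↥(V1 O' E1))[X]) (hP : P.map (IsLocalRing.residue ↥(V1 O' E1)) = 0) :
    ∃ D : (↥(V1 O' E1))[X], P = C h1 * D := by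
  have hmem : P ∈ RingHom.ker (Polynomial.mapRingHom (IsLocalRing.residue ↥(V1 O' E1))) := by
    rw [RingHom.mem_ker, Polynomial.coe_mapRingHom]; exact hP
  rw [Polynomial.ker_mapRingHom, IsLocalRing.ker_residue,
    maximalIdeal_V1_eq hhE hh0 hh1 hE1 h1 hh1eq, Ideal.map_span, Set.image_singleton] at hmem
  obtain ⟨D, hD⟩ := Ideal.mem_span_singleton'.1 hmem
  exact ⟨D, by rw [← hD, mul_comm]⟩

/-- Key algebraic step: there is a polynomial `H` with `H(θ)` a unit such that `H(θ) * P(θ)` is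
divisible by `h` (inside `V1[θ]`) whenever `P(θ)` is a nonunit. -/
theorem exists_unit_mul_eq (hθ : O'.valuation θ ≤ 1) (hhE : h ∈ E1) (hh0 : h ≠ 0)
    (hh1 : O'.valuation h < 1) (hE1 : HPow O' h E1) (K0 : Subfield 𝕃) (hK0E : K0 ≤ E1)
    (hK0O : ∀ c ∈ K0, c ∈ O') (m : Polynomial K0) (hm : m.Separable)
    (hmθ : Polynomial.aeval θ m = 0) :
    ∃ H : (↥(V1 O' E1))[X], O'.valuation (ev O' E1 θ H) = 1 ∧
      ∀ P : (↥(V1 O' E1))[X], O'.valuation (ev O' E1 θ P) < 1 →
        ∃ P1 : (↥(V1 O' E1))[X], ev O' E1 θ H * ev O' E1 θ P = h * ev O' E1 θ P1 := by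
  classical
  obtain ⟨h1, hh1eq⟩ := exists_incl_eq O' E1 hhE hh1.le
  let π : (↥(V1 O' E1))[X] →+* (IsLocalRing.ResidueField ↥(V1 O' E1))[X] :=
    Polynomial.mapRingHom (IsLocalRing.residue ↥(V1 O' E1))
  have hπs : Function.Surjective π :=
    Polynomial.map_surjective _ IsLocalRing.residue_surjective
  have hker : ∀ P : (↥(V1 O' E1))[X], π P = 0 → ∃ D, P = C h1 * D := fun P hP =>
    exists_eq_C_mul_of_map_eq_zero hhE hh0 hh1 hE1 h1 hh1eq P hP
  have hπh1 : π (C h1) = 0 := by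
    have : IsLocalRing.residue ↥(V1 O' E1) h1 = 0 := by
      rw [IsLocalRing.residue_eq_zero_iff, maximalIdeal_V1_eq hhE hh0 hh1 hE1 h1 hh1eq]
      exact Ideal.mem_span_singleton_self _
    simp [π, this]
  -- the ring hom `K0 → V1`
  let j : ↥K0 →+* ↥(V1 O' E1) :=
    { toFun := fun c => ⟨⟨c, hK0E c.2⟩, ValuationSubring.mem_comap.2 (hK0O c c.2)⟩
      map_one' := rfl
      map_mul' := fun _ _ => rfl
      map_zero' := rfl
      map_add' := fun _ _ => rfl }
  have hm1ev : ev O' E1 θ (m.map j) = 0 := by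
    rw [ev_eq_eval_map, Polynomial.map_map]
    have hcomp : (incl O' E1).comp j = algebraMap ↥K0 𝕃 := rfl
    rw [hcomp, Polynomial.eval_map_algebraMap, hmθ]
  have hm1I : m.map j ∈ I0 O' E1 θ hθ := by
    rw [mem_I0, hm1ev, map_zero]; exact zero_lt_one
  -- principal generator of the image ideal
  obtain ⟨gbar, hgbar⟩ : ∃ g, (I0 O' E1 θ hθ).map π = Ideal.span {g} :=
    ⟨_, (Ideal.span_singleton_generator ((I0 O' E1 θ hθ).map π)).symm⟩
  have hgmem : gbar ∈ (I0 O' E1 θ hθ).map π := by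
    rw [hgbar]; exact Ideal.mem_span_singleton_self _
  obtain ⟨G, hGI, hGπ⟩ := (Ideal.mem_map_iff_of_surjective π hπs).1 hgmem
  have hdec : ∀ P ∈ I0 O' E1 θ hθ, ∃ Q D : (↥(V1 O' E1))[X], P = G * Q + C h1 * D := by
    intro P hP
    have hPg : π P ∈ Ideal.span {gbar} := by rw [← hgbar]; exact Ideal.mem_map_of_mem π hP
    obtain ⟨qbar, hq⟩ := Ideal.mem_span_singleton'.1 hPg
    obtain ⟨Q, hQ⟩ := hπs qbar
    obtain ⟨D, hD⟩ := hker (P - G * Q) (by rw [map_sub, map_mul, hGπ, hQ, ← hq]; ring)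
    exact ⟨Q, D, by rw [← hD]; ring⟩
  obtain ⟨Hm, R, hmGH⟩ := hdec _ hm1I
  have hsep : (π (m.map j)).Separable := by
    have h1 : π (m.map j) = m.map ((IsLocalRing.residue ↥(V1 O' E1)).comp j) := by
      simp [π, Polynomial.map_map]
    rw [h1]; exact hm.map
  have hπm : π (m.map j) = gbar * π Hm := by
    rw [hmGH, map_add, map_mul, map_mul, hGπ, hπh1, zero_mul, add_zero]
  rw [hπm] at hsep
  obtain ⟨a, b, hab⟩ := hsep.isCoprime
  obtain ⟨Aa, hAa⟩ := hπs a
  obtain ⟨Bb, hBb⟩ := hπs b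
  obtain ⟨R', hR'⟩ := hker (Aa * G + Bb * Hm - 1)
    (by rw [map_sub, map_add, map_mul, map_mul, hAa, hBb, hGπ, hab, map_one, sub_self])
  have hevG : O'.valuation (ev O' E1 θ G) < 1 := hGI
  have hev1 : ev O' E1 θ Bb * ev O' E1 θ Hm
      = 1 + (h * ev O' E1 θ R' - ev O' E1 θ Aa * ev O' E1 θ G) := by
    have h2 := congrArg (ev O' E1 θ) hR'
    simp only [map_sub, map_add, map_mul, map_one, ev_C, hh1eq] at h2
    linear_combination h2
  have hvBH : O'.valuation (ev O' E1 θ Bb * ev O' E1 θ Hm) = 1 := by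
    rw [hev1]
    apply Valuation.map_one_add_of_lt
    refine lt_of_le_of_lt (Valuation.map_sub _ _ _) (max_lt ?_ ?_)
    · rw [map_mul]; exact mul_lt_one_of_lt_of_le hh1 (val_ev_le_one O' E1 θ hθ _)
    · rw [map_mul, mul_comm]; exact mul_lt_one_of_lt_of_le hevG (val_ev_le_one O' E1 θ hθ _)
  have hvH : O'.valuation (ev O' E1 θ Hm) = 1 := by
    refine le_antisymm (val_ev_le_one O' E1 θ hθ _) ?_
    rw [map_mul] at hvBH
    by_contra hlt
    have hlt' : O'.valuation (ev O' E1 θ Hm) < 1 := lt_of_not_ge hlt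
    have h3 : O'.valuation (ev O' E1 θ Bb) * O'.valuation (ev O' E1 θ Hm) < 1 := by
      rw [mul_comm]; exact mul_lt_one_of_lt_of_le hlt' (val_ev_le_one O' E1 θ hθ _)
    exact absurd hvBH h3.ne
  refine ⟨Hm, hvH, fun P hP => ?_⟩
  obtain ⟨Q, D, hQD⟩ := hdec P hP
  have hGH : ev O' E1 θ G * ev O' E1 θ Hm = -(h * ev O' E1 θ R) := by
    have h2 := congrArg (ev O' E1 θ) hmGH
    rw [hm1ev] at h2
    simp only [map_add, map_mul, ev_C, hh1eq] at h2
    linear_combination -h2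
  refine ⟨Hm * D - R * Q, ?_⟩
  rw [hQD]
  simp only [map_add, map_mul, map_sub, ev_C, hh1eq]
  linear_combination (ev O' E1 θ Q) * hGH

end IdealPart

section Climb

variable {O' : ValuationSubring 𝕃} {E1 : Subfield 𝕃} (θ : 𝕃) {h : 𝕃}

/-- Claim B: no value of `V1[θ]` lies strictly between two consecutive powers of `v h`. -/
theorem val_le_pow_succ (hh1 : O'.valuation h < 1) (hθ : O'.valuation θ ≤ 1)
    (H : (↥(V1 O' E1))[X]) (hH : O'.valuation (ev O' E1 θ H) = 1)
    (hstep : ∀ P : (↥(V1 O' E1))[X], O'.valuation (ev O' E1 θ P) < 1 →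
        ∃ P1 : (↥(V1 O' E1))[X], ev O' E1 θ H * ev O' E1 θ P = h * ev O' E1 θ P1) :
    ∀ (k : ℕ) (P : (↥(V1 O' E1))[X]), O'.valuation (ev O' E1 θ P) < O'.valuation h ^ k →
      O'.valuation (ev O' E1 θ P) ≤ O'.valuation h ^ (k + 1) := by
  intro k
  induction k with
  | zero =>
    intro P hP
    rw [pow_zero] at hP
    obtain ⟨P1, hP1⟩ := hstep P hP
    have h2 := congrArg O'.valuation hP1
    rw [map_mul, map_mul, hH, one_mul] at h2
    rw [h2, zero_add, pow_one]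
    calc O'.valuation h * O'.valuation (ev O' E1 θ P1)
        ≤ O'.valuation h * 1 := mul_le_mul_right (val_ev_le_one O' E1 θ hθ P1) _
      _ = O'.valuation h := mul_one _
  | succ k ih =>
    intro P hP
    have hP' : O'.valuation (ev O' E1 θ P) < 1 := lt_of_lt_of_le hP (pow_le_one' hh1.le _)
    obtain ⟨P1, hP1⟩ := hstep P hP'
    have h2 := congrArg O'.valuation hP1
    rw [map_mul, map_mul, hH, one_mul] at h2
    have h3 : O'.valuation (ev O' E1 θ P1) < O'.valuation h ^ k := by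
      rw [h2, pow_succ'] at hP
      exact lt_of_mul_lt_mul_left' hP
    have h4 := ih P1 h3
    rw [h2, pow_succ' _ (k + 1)]
    exact mul_le_mul_right h4 _

/-- a nonzero value of `V1[θ]` bounded below by a power of `v h` is a power of `v h`. -/
theorem exists_val_eq_pow (hh0 : h ≠ 0) (hh1 : O'.valuation h < 1) (hθ : O'.valuation θ ≤ 1)
    (H : (↥(V1 O' E1))[X]) (hH : O'.valuation (ev O' E1 θ H) = 1)
    (hstep : ∀ P : (↥(V1 O' E1))[X], O'.valuation (ev O' E1 θ P) < 1 →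
        ∃ P1 : (↥(V1 O' E1))[X], ev O' E1 θ H * ev O' E1 θ P = h * ev O' E1 θ P1)
    (P : (↥(V1 O' E1))[X]) (M : ℕ) (hM : O'.valuation h ^ M ≤ O'.valuation (ev O' E1 θ P)) :
    ∃ n : ℕ, O'.valuation (ev O' E1 θ P) = O'.valuation h ^ n := by
  have hvhpos : 0 < O'.valuation h := zero_lt_iff.2 ((Valuation.ne_zero_iff _).2 hh0)
  have key : ∀ n : ℕ, (∃ j : ℕ, O'.valuation (ev O' E1 θ P) = O'.valuation h ^ j) ∨
      O'.valuation (ev O' E1 θ P) ≤ O'.valuation h ^ n := by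
    intro n
    induction n with
    | zero => right; rw [pow_zero]; exact val_ev_le_one O' E1 θ hθ P
    | succ n ih =>
      rcases ih with hj | hle
      · exact Or.inl hj
      · rcases hle.eq_or_lt with heq | hlt
        · exact Or.inl ⟨n, heq⟩
        · exact Or.inr (val_le_pow_succ θ hh1 hθ H hH hstep n P hlt)
  rcases key (M + 1) with hj | hle
  · exact hj
  · exfalso
    have h1 : O'.valuation h ^ (M + 1) < O'.valuation h ^ M :=
      pow_lt_pow_right_of_lt_one₀ hvhpos hh1 (Nat.lt_succ_self M)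
    exact absurd (lt_of_le_of_lt hle h1) (not_lt.2 hM)

/-- scaling a polynomial over `E1` by a power of `h` makes its coefficients integral -/
theorem exists_pow_mul_coeff_le_one (hh0 : h ≠ 0) (hh1 : O'.valuation h < 1)
    (hE1 : HPow O' h E1) (P : Polynomial ↥E1) :
    ∃ k : ℕ, ∀ i, O'.valuation (h ^ k * ((P.coeff i : ↥E1) : 𝕃)) ≤ 1 := by
  have hvh0 : O'.valuation h ≠ 0 := (Valuation.ne_zero_iff _).2 hh0
  have hvhpos : 0 < O'.valuation h := zero_lt_iff.2 hvh0
  induction P using Polynomial.induction_on' with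
  | add p q hp hq =>
    obtain ⟨kp, hkp⟩ := hp
    obtain ⟨kq, hkq⟩ := hq
    refine ⟨kp + kq, fun i => ?_⟩
    rw [Polynomial.coeff_add, Subfield.coe_add, mul_add]
    refine le_trans (Valuation.map_add _ _ _) (max_le ?_ ?_)
    · rw [pow_add, mul_comm (h ^ kp), mul_assoc, map_mul]
      exact mul_le_one' (by rw [map_pow]; exact pow_le_one' hh1.le _) (hkp i)
    · rw [pow_add, mul_assoc, map_mul]
      exact mul_le_one' (by rw [map_pow]; exact pow_le_one' hh1.le _) (hkq i)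
  | monomial n a =>
    by_cases ha : a = 0
    · exact ⟨0, fun i => by simp [ha]⟩
    have ha0 : (a : 𝕃) ≠ 0 := fun h0 => ha (Subtype.ext h0)
    obtain ⟨z, hz⟩ := hE1 (a : 𝕃) a.2 ha0
    refine ⟨(-z).toNat, fun i => ?_⟩
    rw [Polynomial.coeff_monomial]
    split_ifs with hi
    · rw [map_mul, map_pow, hz, ← zpow_natCast, ← zpow_add₀ hvh0]
      exact zpow_le_one₀ hvhpos hh1.le (by omega)
    · simp

/-- every `P(θ)`, `P ∈ E1[T]`, becomes an element of `V1[θ]` after scaling by a power of `h` -/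
theorem exists_scaled_rep (hhE : h ∈ E1) (hh0 : h ≠ 0) (hh1 : O'.valuation h < 1)
    (hE1 : HPow O' h E1) (P : Polynomial ↥E1) :
    ∃ (k : ℕ) (P' : (↥(V1 O' E1))[X]), ev O' E1 θ P' = h ^ k * Polynomial.aeval θ P := by
  obtain ⟨k, hk⟩ := exists_pow_mul_coeff_le_one hh0 hh1 hE1 P
  have hlift : C (h ^ k) * P.map (algebraMap ↥E1 𝕃) ∈ Polynomial.lifts (incl O' E1) := by
    rw [Polynomial.lifts_iff_coeff_lifts]
    intro i
    rw [Polynomial.coeff_C_mul, Polynomial.coeff_map]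
    obtain ⟨x, hx⟩ := exists_incl_eq O' E1
      (E1.mul_mem (E1.pow_mem hhE k) (P.coeff i).2) (hk i)
    exact ⟨x, hx⟩
  obtain ⟨P', hP'⟩ := (Polynomial.mem_lifts _).1 hlift
  refine ⟨k, P', ?_⟩
  rw [ev_eq_eval_map, hP', Polynomial.eval_mul, Polynomial.eval_C,
    Polynomial.eval_map_algebraMap]

end Climb

section Main

variable (O' : ValuationSubring 𝕃) (h : 𝕃)

/-- elements of `E1(θ)` are polynomial expressions in `θ` -/
theorem exists_aeval_eq_of_mem_closure (E1 : Subfield 𝕃) (θ : 𝕃) (hθ : IsIntegral ↥E1 θ) (z : 𝕃)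
    (hz : z ∈ Subfield.closure ((E1 : Set 𝕃) ∪ {θ})) :
    ∃ P : Polynomial ↥E1, Polynomial.aeval θ P = z := by
  have h1 : z ∈ (IntermediateField.adjoin ↥E1 ({θ} : Set 𝕃)) := by
    change z ∈ Subfield.closure (Set.range (algebraMap ↥E1 𝕃) ∪ {θ})
    have h2 : Set.range (algebraMap ↥E1 𝕃) = (E1 : Set 𝕃) := Subtype.range_coe
    rw [h2]; exact hz
  rw [← IntermediateField.mem_toSubalgebra,
    IntermediateField.adjoin_simple_toSubalgebra_of_isAlgebraic hθ.isAlgebraic,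
    Algebra.adjoin_singleton_eq_range_aeval] at h1
  exact h1

/-- **Step theorem**: the property `HPow` is preserved by adjoining a root of a separable
polynomial with coefficients in a subfield `K0 ≤ E1` of units of `O'`. -/
theorem hPow_adjoin_root (K0 E1 : Subfield 𝕃) (hK0E : K0 ≤ E1) (hK0O : ∀ c ∈ K0, c ∈ O')
    (hhE : h ∈ E1) (hh0 : h ≠ 0) (hh1 : O'.valuation h < 1) (hE1 : HPow O' h E1) (θ : 𝕃)
    (m : Polynomial K0) (hm : m.Separable) (hmθ : Polynomial.aeval θ m = 0) :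
    HPow O' h (Subfield.closure ((E1 : Set 𝕃) ∪ {θ})) := by
  intro y hy hy0
  have hvh0 : O'.valuation h ≠ 0 := (Valuation.ne_zero_iff _).2 hh0
  have hvy0 : O'.valuation y ≠ 0 := (Valuation.ne_zero_iff _).2 hy0
  have hθK0 : IsIntegral ↥K0 θ := IsAlgebraic.isIntegral ⟨m, hm.ne_zero, hmθ⟩
  -- integrality over `E1`
  have hθE1 : IsIntegral ↥E1 θ := by
    obtain ⟨q, hq, hq0⟩ := hθK0
    refine ⟨q.map (Subfield.inclusion hK0E), hq.map _, ?_⟩
    rw [Polynomial.eval₂_map]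
    exact hq0
  -- `θ ∈ O'`
  have hθO : O'.valuation θ ≤ 1 := by
    obtain ⟨q, hq, hq0⟩ := hθK0
    let jO : ↥K0 →+* ↥O' :=
      { toFun := fun c => ⟨c, hK0O c c.2⟩
        map_one' := rfl
        map_mul' := fun _ _ => rfl
        map_zero' := rfl
        map_add' := fun _ _ => rfl }
    have hint : IsIntegral ↥O' θ := by
      refine ⟨q.map jO, hq.map _, ?_⟩
      rw [Polynomial.eval₂_map]
      exact hq0
    obtain ⟨t, ht⟩ := (IsIntegrallyClosed.isIntegral_iff (R := ↥O') (K := 𝕃)).1 hint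
    rw [← ht]
    exact O'.valuation_le_one t
  obtain ⟨P, hP⟩ := exists_aeval_eq_of_mem_closure E1 θ hθE1 y hy
  obtain ⟨P2, hP2⟩ := exists_aeval_eq_of_mem_closure E1 θ hθE1 y⁻¹ (inv_mem hy)
  obtain ⟨k, P', hP'⟩ := exists_scaled_rep θ hhE hh0 hh1 hE1 P
  obtain ⟨k2, P2', hP2'⟩ := exists_scaled_rep θ hhE hh0 hh1 hE1 P2
  obtain ⟨H, hH, hstep⟩ := exists_unit_mul_eq θ hθO hhE hh0 hh1 hE1 K0 hK0E hK0O m hm hmθ
  have hM : O'.valuation h ^ (k + k2) ≤ O'.valuation (ev O' E1 θ P') := by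
    rw [hP', hP, map_mul, map_pow, pow_add]
    refine mul_le_mul_right ?_ _
    have h1 : O'.valuation (h ^ k2 * y⁻¹) ≤ 1 := by
      rw [← hP2, ← hP2']; exact val_ev_le_one O' E1 θ hθO P2'
    rw [map_mul, map_pow, map_inv₀] at h1
    have h2 := (mul_inv_le_iff₀ (zero_lt_iff.2 hvy0)).1 h1
    rwa [one_mul] at h2
  obtain ⟨n, hn⟩ := exists_val_eq_pow θ hh0 hh1 hθO H hH hstep P' (k + k2) hM
  refine ⟨(n : ℤ) - k, ?_⟩
  rw [hP', hP, map_mul, map_pow] at hn
  rw [zpow_sub₀ hvh0, zpow_natCast, zpow_natCast, eq_div_iff (pow_ne_zero _ hvh0), mul_comm]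
  exact hn

theorem closure_union_insert (E0 : Subfield 𝕃) (T : Set 𝕃) (a : 𝕃) :
    Subfield.closure ((E0 : Set 𝕃) ∪ insert a T) =
      Subfield.closure ((Subfield.closure ((E0 : Set 𝕃) ∪ T) : Set 𝕃) ∪ {a}) := by
  rw [Subfield.closure_union (↑(Subfield.closure ((E0 : Set 𝕃) ∪ T))) {a}, Subfield.closure_eq,
    ← Subfield.closure_union, Set.union_singleton, Set.union_insert]

/-- finite version of the closure theorem -/
theorem hPow_closure_finset (K0 E0 : Subfield 𝕃) (hK0E : K0 ≤ E0) (hK0O : ∀ c ∈ K0, c ∈ O')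
    (hhE : h ∈ E0) (hh0 : h ≠ 0) (hh1 : O'.valuation h < 1) (hE0 : HPow O' h E0)
    (T : Finset 𝕃)
    (hT : ∀ s ∈ T, ∃ m : Polynomial K0, m.Separable ∧ Polynomial.aeval s m = 0) :
    HPow O' h (Subfield.closure ((E0 : Set 𝕃) ∪ ↑T)) := by
  classical
  induction T using Finset.induction_on with
  | empty =>
    have h1 : Subfield.closure ((E0 : Set 𝕃) ∪ ↑(∅ : Finset 𝕃)) = E0 := by
      rw [Finset.coe_empty, Set.union_empty, Subfield.closure_eq]
    rw [h1]; exact hE0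
  | insert a T _ ih =>
    rw [Finset.coe_insert, closure_union_insert]
    obtain ⟨m, hm, hma⟩ := hT a (Finset.mem_insert_self a T)
    have hle : E0 ≤ Subfield.closure ((E0 : Set 𝕃) ∪ ↑T) := fun x hx =>
      Subfield.subset_closure (Or.inl hx)
    exact hPow_adjoin_root O' h K0 _ (hK0E.trans hle) hK0O (hle hhE) hh0 hh1
      (ih fun s hs => hT s (Finset.mem_insert_of_mem hs)) a m hm hma

/-- **Closure theorem**: adjoining to `E0` any set of elements which are separable algebraic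
over the subfield `K0 ≤ E0` of units does not change the value group `v(h)^ℤ`. -/
theorem hPow_closure_separable (K0 E0 : Subfield 𝕃) (hK0E : K0 ≤ E0)
    (hK0O : ∀ c ∈ K0, c ∈ O') (hhE : h ∈ E0) (hh0 : h ≠ 0) (hh1 : O'.valuation h < 1)
    (hE0 : HPow O' h E0) (S : Set 𝕃)
    (hS : ∀ s ∈ S, ∃ m : Polynomial K0, m.Separable ∧ Polynomial.aeval s m = 0) :
    HPow O' h (Subfield.closure ((E0 : Set 𝕃) ∪ S)) := by
  intro y hy hy0
  have hr : Set.range (algebraMap ↥E0 𝕃) = (E0 : Set 𝕃) := Subtype.range_coe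
  have h1 : y ∈ IntermediateField.adjoin ↥E0 S := by
    change y ∈ Subfield.closure (Set.range (algebraMap ↥E0 𝕃) ∪ S)
    rw [hr]; exact hy
  obtain ⟨T, hTS, hyT⟩ := IntermediateField.exists_finset_of_mem_adjoin h1
  have h2 : y ∈ Subfield.closure ((E0 : Set 𝕃) ∪ ↑T) := by
    rw [← hr]; exact hyT
  exact hPow_closure_finset O' h K0 E0 hK0E hK0O hhE hh0 hh1 hE0 T
    (fun s hs => hS s (hTS hs)) y h2 hy0

/-- characteristic zero version: algebraic elements -/
theorem hPow_closure_algebraic [CharZero 𝕃] (K0 E0 : Subfield 𝕃) (hK0E : K0 ≤ E0)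
    (hK0O : ∀ c ∈ K0, c ∈ O') (hhE : h ∈ E0) (hh0 : h ≠ 0) (hh1 : O'.valuation h < 1)
    (hE0 : HPow O' h E0) (S : Set 𝕃) (hS : ∀ s ∈ S, IsAlgebraic K0 s) :
    HPow O' h (Subfield.closure ((E0 : Set 𝕃) ∪ S)) :=
  hPow_closure_separable O' h K0 E0 hK0E hK0O hhE hh0 hh1 hE0 S fun s hs =>
    ⟨minpoly ↥K0 s, (minpoly.irreducible (hS s hs).isIntegral).separable, minpoly.aeval _ _⟩

end Main

end Fermat.Agent.S40x.R2.CFE
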