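/-
C3-CFE consumer (helper88): "constants are unramified", consumer form.

Inside one ambient field `𝕃`: `E0` a subfield on which the subring `O` induces a discrete
valuation with uniformiser `h`, trivial on `K0 ≤ E0`; `Kb` algebraic over `K0`; `F` a function
field over `Kb` contained in the compositum `Kb·E0`; `fx ∈ F` with all `Place`-orders divisible
by `p`.  Then every `ft = c * fx * g ^ p` (`g` in the compositum) has `h`-exponent divisible by `p`.
-/
import Fermat.Agent.S40x.R2.CFE.Core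
import Fermat.Prelude.Def_AlgebraicCurve_DivisorClassGroup

set_option autoImplicit false

namespace Fermat.Agent.S40x.R2.CFE

variable {𝕃 : Type*} [Field 𝕃]

/-- `y` is a unit of the subring `O` of the ambient field. -/
def UnitIn (O : Subring 𝕃) (y : 𝕃) : Prop := y ∈ O ∧ y⁻¹ ∈ O

theorem val_eq_one_of_mem_of_inv_mem (O' : ValuationSubring 𝕃) {y : 𝕃} (hy0 : y ≠ 0)
    (hy : y ∈ O') (hyi : y⁻¹ ∈ O') : O'.valuation y = 1 := by
  have h1 : O'.valuation y ≤ 1 := (O'.valuation_le_one_iff y).2 hy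
  have h2 : O'.valuation y⁻¹ ≤ 1 := (O'.valuation_le_one_iff _).2 hyi
  have hv0 : 0 < O'.valuation y := zero_lt_iff.2 ((Valuation.ne_zero_iff _).2 hy0)
  rw [map_inv₀, inv_le_one₀ hv0] at h2
  exact le_antisymm h1 h2

theorem val_eq_one_of_unitIn {O : Subring 𝕃} {O' : ValuationSubring 𝕃} (hle : O ≤ O'.toSubring)
    {y : 𝕃} (hy0 : y ≠ 0) (hy : UnitIn O y) : O'.valuation y = 1 :=
  val_eq_one_of_mem_of_inv_mem O' hy0 (hle hy.1) (hle hy.2)

theorem val_eq_zpow_of_unitIn {O : Subring 𝕃} {O' : ValuationSubring 𝕃} (hle : O ≤ O'.toSubring)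
    {x h : 𝕃} (hx : x ≠ 0) (hh0 : h ≠ 0) {n : ℤ} (hu : UnitIn O (x * h ^ (-n))) :
    O'.valuation x = O'.valuation h ^ n := by
  have hvh0 : O'.valuation h ≠ 0 := (Valuation.ne_zero_iff _).2 hh0
  have h1 := val_eq_one_of_unitIn hle (mul_ne_zero hx (zpow_ne_zero _ hh0)) hu
  rw [map_mul, map_zpow₀, zpow_neg, mul_inv_eq_one₀ (zpow_ne_zero _ hvh0)] at h1
  exact h1

/-- elements algebraic over a subfield of `O'` lie in `O'` -/
theorem val_le_one_of_isAlgebraic (O' : ValuationSubring 𝕃) (K0 : Subfield 𝕃)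
    (hK0O : ∀ c ∈ K0, c ∈ O') (θ : 𝕃) (hθ : IsAlgebraic K0 θ) : O'.valuation θ ≤ 1 := by
  obtain ⟨q, hq, hq0⟩ := hθ.isIntegral
  let jO : ↥K0 →+* ↥O' :=
    { toFun := fun c => ⟨c, hK0O c c.2⟩
      map_one' := rfl
      map_mul' := fun _ _ => rfl
      map_zero' := rfl
      map_add' := fun _ _ => rfl }
  have hint : IsIntegral ↥O' θ := by
    refine ⟨q.map jO, hq.map _, ?_⟩
    rw [Polynomial.eval₂_map]
    exact hq0
  obtain ⟨t, ht⟩ := (IsIntegrallyClosed.isIntegral_iff (R := ↥O') (K := 𝕃)).1 hint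
  rw [← ht]
  exact O'.valuation_le_one t

section PID

variable {F : Type*} [Field F]

/-- natural exponent of a nonzero integral element -/
theorem exists_nat_exponent (φ : F →+* 𝕃) (O' : ValuationSubring 𝕃) (h : 𝕃) (hh0 : h ≠ 0)
    (hh1 : O'.valuation h < 1)
    (hF : ∀ y : F, y ≠ 0 → ∃ n : ℤ, O'.valuation (φ y) = O'.valuation h ^ n)
    (y : F) (hy0 : y ≠ 0) (hy : O'.valuation (φ y) ≤ 1) :
    ∃ n : ℕ, O'.valuation (φ y) = O'.valuation h ^ n := by
  have hvhpos : 0 < O'.valuation h := zero_lt_iff.2 ((Valuation.ne_zero_iff _).2 hh0)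
  obtain ⟨n, hn⟩ := hF y hy0
  have hn0 : 0 ≤ n := by
    rw [hn] at hy
    exact (zpow_le_one_iff_right_of_lt_one₀ hvhpos hh1).1 hy
  exact ⟨n.toNat, by rw [hn, ← zpow_natCast, Int.toNat_of_nonneg hn0]⟩

/-- the restriction of a valuation ring with value group `v(h)^ℤ` is a principal ideal ring -/
theorem comap_isPrincipalIdealRing (φ : F →+* 𝕃) (O' : ValuationSubring 𝕃) (h : 𝕃) (hh0 : h ≠ 0)
    (hh1 : O'.valuation h < 1)
    (hF : ∀ y : F, y ≠ 0 → ∃ n : ℤ, O'.valuation (φ y) = O'.valuation h ^ n) :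
    IsPrincipalIdealRing ↥(O'.comap φ) := by
  classical
  have hvh0 : O'.valuation h ≠ 0 := (Valuation.ne_zero_iff _).2 hh0
  refine ⟨fun I => ?_⟩
  by_cases hI : I = ⊥
  · rw [hI]; exact bot_isPrincipal
  have hval : ∀ y : ↥(O'.comap φ), O'.valuation (φ (y : F)) ≤ 1 := fun y =>
    (O'.valuation_le_one_iff _).2 (ValuationSubring.mem_comap.1 y.2)
  have hex : ∀ y : ↥(O'.comap φ), y ≠ 0 →
      ∃ n : ℕ, O'.valuation (φ (y : F)) = O'.valuation h ^ n := fun y hy0 =>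
    exists_nat_exponent φ O' h hh0 hh1 hF (y : F) (fun h0 => hy0 (Subtype.ext h0)) (hval y)
  have hne : ∃ n : ℕ, ∃ x ∈ I, x ≠ 0 ∧ O'.valuation (φ (x : F)) = O'.valuation h ^ n := by
    obtain ⟨x, hxI, hx0⟩ := Submodule.exists_mem_ne_zero_of_ne_bot hI
    obtain ⟨n, hn⟩ := hex x hx0
    exact ⟨n, x, hxI, hx0, hn⟩
  obtain ⟨x, hxI, hx0, hxn⟩ := Nat.find_spec hne
  have hx0' : (x : F) ≠ 0 := fun h0 => hx0 (Subtype.ext h0)
  refine ⟨⟨x, le_antisymm ?_ ?_⟩⟩
  · intro y hyI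
    by_cases hy0 : y = 0
    · rw [hy0]; exact zero_mem _
    obtain ⟨ny, hny⟩ := hex y hy0
    have hle : Nat.find hne ≤ ny := Nat.find_min' hne ⟨y, hyI, hy0, hny⟩
    have hq : (y : F) * (x : F)⁻¹ ∈ O'.comap φ := by
      rw [ValuationSubring.mem_comap, ← O'.valuation_le_one_iff, map_mul, map_inv₀, map_mul,
        map_inv₀, hny, hxn, ← pow_sub₀ _ hvh0 hle]
      exact pow_le_one' hh1.le _
    refine Ideal.mem_span_singleton'.2 ⟨⟨_, hq⟩, Subtype.ext ?_⟩
    change (y : F) * (x : F)⁻¹ * (x : F) = (y : F)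
    field_simp
  · rw [Submodule.span_singleton_le_iff_mem]; exact hxI

end PID

section Consumer

variable {Kb F : Type*} [Field Kb] [Field F] [Algebra Kb F] [Algebra F 𝕃] [Algebra Kb 𝕃]
  [IsScalarTower Kb F 𝕃]

/-- the `h`-exponent of a function all of whose `Place`-orders are divisible by `p` is divisible
by `p` -/
theorem exists_exponent_dvd (O' : ValuationSubring 𝕃) (h : 𝕃) (hh0 : h ≠ 0)
    (hh1 : O'.valuation h < 1) (hKb : ∀ c : Kb, algebraMap Kb 𝕃 c ∈ O')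
    (hF : ∀ y : F, y ≠ 0 → ∃ n : ℤ, O'.valuation (algebraMap F 𝕃 y) = O'.valuation h ^ n)
    (p : ℕ) (fx : F) (hfx : fx ≠ 0)
    (hKF3 : ∀ P : AlgebraicCurve.Place Kb F, (p : ℤ) ∣ P.ord fx) :
    ∃ e : ℤ, O'.valuation (algebraMap F 𝕃 fx) = O'.valuation h ^ e ∧ (p : ℤ) ∣ e := by
  have hinj : Function.Injective (algebraMap F 𝕃) := (algebraMap F 𝕃).injective
  by_cases hV : O'.comap (algebraMap F 𝕃) = ⊤
  · refine ⟨0, ?_, dvd_zero _⟩
    have h1 : fx ∈ O'.comap (algebraMap F 𝕃) := by rw [hV]; exact ValuationSubring.mem_top _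
    have h2 : fx⁻¹ ∈ O'.comap (algebraMap F 𝕃) := by rw [hV]; exact ValuationSubring.mem_top _
    rw [ValuationSubring.mem_comap] at h1 h2
    rw [map_inv₀] at h2
    rw [zpow_zero]
    exact val_eq_one_of_mem_of_inv_mem O' (fun h0 => hfx (hinj (by rw [h0, map_zero]))) h1 h2
  · obtain ⟨P, hP⟩ : ∃ P : AlgebraicCurve.Place Kb F,
        P.toValuationSubring = O'.comap (algebraMap F 𝕃) :=
      ⟨{ toValuationSubring := O'.comap (algebraMap F 𝕃)
         algebraMap_mem' := fun a => by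
          rw [ValuationSubring.mem_comap, ← IsScalarTower.algebraMap_apply]
          exact hKb a
         ne_top' := hV
         isPrincipalIdealRing' :=
          comap_isPrincipalIdealRing (algebraMap F 𝕃) O' h hh0 hh1 hF }, rfl⟩
    obtain ⟨π, hπ⟩ := IsDiscreteValuationRing.exists_irreducible ↥P.toValuationSubring
    obtain ⟨u, hu⟩ := P.exists_unit_mul_zpow hfx hπ
    have hπ0 : (π : F) ≠ 0 := fun h0 => hπ.ne_zero (Subtype.ext h0)
    obtain ⟨eπ, heπ⟩ := hF (π : F) hπ0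
    refine ⟨eπ * P.ord fx, ?_, Dvd.dvd.mul_left (hKF3 P) eπ⟩
    have hu1 : O'.valuation (algebraMap F 𝕃 ((u : ↥P.toValuationSubring) : F)) = 1 := by
      have hmem' : ∀ z : F, z ∈ P.toValuationSubring → algebraMap F 𝕃 z ∈ O' := fun z hz => by
        rw [hP] at hz
        exact ValuationSubring.mem_comap.1 hz
      have hmem : ∀ w : ↥P.toValuationSubring, algebraMap F 𝕃 (w : F) ∈ O' := fun w =>
        hmem' _ w.2
      have hmul : ((u : ↥P.toValuationSubring) : F) * ((↑u⁻¹ : ↥P.toValuationSubring) : F) = 1 := by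
        change (((u : ↥P.toValuationSubring) * (↑u⁻¹ : ↥P.toValuationSubring) :
          ↥P.toValuationSubring) : F) = 1
        rw [u.mul_inv]; rfl
      have hu0 : ((u : ↥P.toValuationSubring) : F) ≠ 0 := left_ne_zero_of_mul_eq_one hmul
      have hinv : (algebraMap F 𝕃 ((u : ↥P.toValuationSubring) : F))⁻¹
          = algebraMap F 𝕃 ((↑u⁻¹ : ↥P.toValuationSubring) : F) := by
        rw [← map_inv₀]; congr 1; exact inv_eq_of_mul_eq_one_right hmul
      refine val_eq_one_of_mem_of_inv_mem O' (fun h0 => hu0 (hinj (by rw [h0, map_zero])))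
        (hmem _) ?_
      rw [hinv]; exact hmem _
    have h3 := congrArg (fun z => O'.valuation (algebraMap F 𝕃 z)) hu
    simp only [map_mul, map_zpow₀, hu1, one_mul, heπ] at h3
    rw [h3, zpow_mul]

/-- **C3-CFE consumer.**  Constants are unramified: the `h`-exponent of `ft = c * fx * g ^ p`
is divisible by `p`. -/
theorem dvd_of_eq_const_mul_pow [CharZero 𝕃]
    (K0 E0 : Subfield 𝕃) (hK0 : K0 ≤ E0)
    (halg : ∀ c : Kb, IsAlgebraic K0 (algebraMap Kb 𝕃 c))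
    (O : Subring 𝕃) (h : 𝕃) (hh : h ∈ O) (hhE : h ∈ E0) (hh0 : h ≠ 0) (hhu : h⁻¹ ∉ O)
    (hK0O : ∀ c ∈ K0, c ∈ O)
    (hE0 : ∀ x ∈ E0, x ≠ 0 → ∃ n : ℤ, UnitIn O (x * h ^ (-n)))
    (hF : ∀ y : F, algebraMap F 𝕃 y ∈
        Subfield.closure ((E0 : Set 𝕃) ∪ Set.range (algebraMap Kb 𝕃)))
    (p : ℕ) (fx : F) (hfx : fx ≠ 0)
    (hKF3 : ∀ P : AlgebraicCurve.Place Kb F, (p : ℤ) ∣ P.ord fx)
    (c : Kb) (hc : c ≠ 0) (g : 𝕃)
    (hg : g ∈ Subfield.closure ((E0 : Set 𝕃) ∪ Set.range (algebraMap Kb 𝕃))) (hg0 : g ≠ 0)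
    (ft : 𝕃) (n : ℤ) (hft : UnitIn O (ft * h ^ (-n)))
    (heq : ft = algebraMap Kb 𝕃 c * algebraMap F 𝕃 fx * g ^ p) : (p : ℤ) ∣ n := by
  -- a valuation ring above `O` in which `h` is a nonunit
  have hI : Ideal.span {(⟨h, hh⟩ : O)} ≠ ⊤ := by
    intro htop
    have h1 : (1 : O) ∈ Ideal.span {(⟨h, hh⟩ : O)} := by rw [htop]; exact Submodule.mem_top
    obtain ⟨a, ha⟩ := Ideal.mem_span_singleton'.1 h1
    have h2 : (a : 𝕃) * h = 1 := by
      have := congrArg Subtype.val ha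
      simpa using this
    apply hhu
    rw [← eq_inv_of_mul_eq_one_left h2]
    exact a.2
  obtain ⟨O', hle, hnon⟩ := Ideal.image_subset_nonunits_valuationSubring _ hI
  have hh1 : O'.valuation h < 1 :=
    (ValuationSubring.mem_nonunits_iff O').1 (hnon ⟨⟨h, hh⟩, Ideal.subset_span rfl, rfl⟩)
  have hvh0 : O'.valuation h ≠ 0 := (Valuation.ne_zero_iff _).2 hh0
  have hvhpos : 0 < O'.valuation h := zero_lt_iff.2 hvh0
  have hK0O' : ∀ c ∈ K0, c ∈ O' := fun c hc => hle (hK0O c hc)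
  -- the value group on the compositum
  have hPowE0 : HPow O' h E0 := fun x hx hx0 => by
    obtain ⟨n, hn⟩ := hE0 x hx hx0
    exact ⟨n, val_eq_zpow_of_unitIn hle hx0 hh0 hn⟩
  have hPow : HPow O' h (Subfield.closure ((E0 : Set 𝕃) ∪ Set.range (algebraMap Kb 𝕃))) :=
    hPow_closure_algebraic O' h K0 E0 hK0 hK0O' hhE hh0 hh1 hPowE0 _
      (by rintro _ ⟨c, rfl⟩; exact halg c)
  have hinjF : Function.Injective (algebraMap F 𝕃) := (algebraMap F 𝕃).injective
  have hinjK : Function.Injective (algebraMap Kb 𝕃) := (algebraMap Kb 𝕃).injective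
  have hKb : ∀ c : Kb, algebraMap Kb 𝕃 c ∈ O' := fun c =>
    (O'.valuation_le_one_iff _).1 (val_le_one_of_isAlgebraic O' K0 hK0O' _ (halg c))
  obtain ⟨e, he, hpe⟩ := exists_exponent_dvd O' h hh0 hh1 hKb
    (fun y hy0 => hPow _ (hF y) (fun h0 => hy0 (hinjF (by rw [h0, map_zero])))) p fx hfx hKF3
  obtain ⟨k, hk⟩ := hPow g hg hg0
  have hc1 : O'.valuation (algebraMap Kb 𝕃 c) = 1 := by
    refine val_eq_one_of_mem_of_inv_mem O' (fun h0 => hc (hinjK (by rw [h0, map_zero])))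
      (hKb c) ?_
    rw [← map_inv₀]; exact hKb _
  have hft0 : ft ≠ 0 := by
    rw [heq]
    exact mul_ne_zero (mul_ne_zero (fun h0 => hc (hinjK (by rw [h0, map_zero])))
      (fun h0 => hfx (hinjF (by rw [h0, map_zero])))) (pow_ne_zero _ hg0)
  have hn := val_eq_zpow_of_unitIn hle hft0 hh0 hft
  rw [heq, map_mul, map_mul, map_pow, hc1, one_mul, he, hk, ← zpow_natCast, ← zpow_mul,
    ← zpow_add₀ hvh0] at hn
  have hn' : e + k * (p : ℤ) = n := (zpow_right_inj₀ hvhpos hh1.ne).1 hn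
  rw [← hn']
  exact dvd_add hpe (Dvd.intro_left k rfl)

end Consumer

end Fermat.Agent.S40x.R2.CFE
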